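import Fermat.Agent.S36.Mod3.H988.Deg3Descent
import Fermat.Agent.A2.Mod.H398.L8

/-!
# S36 / MOD3 leaf **DEG3** (helper988)

For `q` prime, `q ∤ M`, `E ⊆ ℚ̄` any intermediate field and `x = j · j_q · j_{q²}` at level
`M q²`:

* `x` is transcendental over `E`;
* `[F_{M q²} : E(x)] = 3 q (q + 1) ψ(M)`;
* `E` is algebraically closed in `F_{M q²}`.

Proof: tower `E(x) ⊆ E(j, j_q, j_{q²}) ⊆ F_{M q²}`;  `[F_{M q²} : E_{q²}] = ψ(M)` (S28 degree
formula); `[E_{q²} : E(x)] = [Ē_{q²} : Ē(x)]` (`Deg3Descent`) `= 3 q (q+1)` (`Deg3Core`: the three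
factors `j, j_q, j_{q²}` are pairwise mutually integral, hence have the same poles, and each has
degree `q (q + 1)`).
-/

set_option autoImplicit false
set_option linter.style.haveILetI false
set_option linter.unusedSectionVars false
set_option synthInstance.maxHeartbeats 400000
set_option maxHeartbeats 1600000

noncomputable section

namespace Fermat.Agent.S36.Mod3.H988

open ModularCurve HahnSeries Polynomial IntermediateField
open Fermat.Agent.S28 Fermat.Agent.S28.H988 Fermat.Agent.S37.H988 Fermat.Agent.A2.Mod.H398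
open Fermat.Agent.A2.Mod

/-! ### Descent for the fields `E_N` -/

section Full

variable (E : Type*) [Field E] [CharZero E]

/-- `E_N` is finite over `E(x)` for every transcendental `x ∈ E_N`. -/
theorem relfinrank_full_ne_zero {N : ℕ} (hN : N ≠ 0) {x : LaurentSeries E}
    (hx : x ∈ modularFunctionFieldFullC E N) (htr : Transcendental E x) :
    (E⟮x⟯).relfinrank (modularFunctionFieldFullC E N) ≠ 0 := by
  have hjmem : jqModC E ∈ modularFunctionFieldFullC E N := j_mem_full E N hN
  have hj1 : (E⟮jqModC E⟯).relfinrank (modularFunctionFieldFullC E N) ≠ 0 := by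
    have h1 := relfinrank_jField_full_eq E N hN (charHyp E N)
    have hpos := dedekindPsi_pos N hN
    have h2 : (E⟮jqModC E⟯).relfinrank (modularFunctionFieldFullC E N) = dedekindPsi N := h1
    rw [h2]
    omega
  haveI : FiniteDimensional
      E⟮(⟨jqModC E, hjmem⟩ : modularFunctionFieldFullC E N)⟯ (modularFunctionFieldFullC E N) :=
    finiteDimensional_adjoin_simple_of_relfinrank_ne_zero _ ⟨jqModC E, hjmem⟩ hj1
  have htrj : Transcendental E (⟨jqModC E, hjmem⟩ : modularFunctionFieldFullC E N) := fun h =>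
    transcendental_jqModC' E
      ((isAlgebraic_algHom_iff (modularFunctionFieldFullC E N).val
        (modularFunctionFieldFullC E N).val.injective).mpr h)
  have htrx : Transcendental E (⟨x, hx⟩ : modularFunctionFieldFullC E N) := fun h =>
    htr ((isAlgebraic_algHom_iff (modularFunctionFieldFullC E N).val
        (modularFunctionFieldFullC E N).val.injective).mpr h)
  haveI : FiniteDimensional
      E⟮(⟨x, hx⟩ : modularFunctionFieldFullC E N)⟯ (modularFunctionFieldFullC E N) :=
    Fermat.Agent.S24.FF.finiteDimensional_adjoin_of_transcendental htrj htrx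
  have h := finrank_adjoin_simple_eq_relfinrank (modularFunctionFieldFullC E N) ⟨x, hx⟩
  have h3 : (E⟮x⟯).relfinrank (modularFunctionFieldFullC E N) =
      Module.finrank E⟮(⟨x, hx⟩ : modularFunctionFieldFullC E N)⟯
        (modularFunctionFieldFullC E N) := h.symm
  rw [h3]
  exact (Module.finrank_pos).ne'

variable (K : Type*) [Field K] [CharZero K] [Algebra E K]

theorem image_iotaL_divisorExpansionsC (N : ℕ) :
    ⇑(iotaL E K) '' divisorExpansionsC E N = divisorExpansionsC K N := by
  ext x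
  constructor
  · rintro ⟨y, ⟨d, hne, hd, rfl⟩, rfl⟩
    refine ⟨d, hne, hd, ?_⟩
    rw [iotaL, coeffMap_qExpand, coeffMap_jqModC]
  · rintro ⟨d, hne, hd, rfl⟩
    refine ⟨qExpand E d (jqModC E), ⟨d, hne, hd, rfl⟩, ?_⟩
    rw [iotaL, coeffMap_qExpand, coeffMap_jqModC]

/-- **Descent for `E_N`**: `[E_N : E(x)] = [K_N : K(ι x)]`. -/
theorem relfinrank_full_descent {N : ℕ} (hN : N ≠ 0) {x : LaurentSeries E}
    (hx : x ∈ modularFunctionFieldFullC E N) (htr : Transcendental E x) {D : ℕ} (hD : D ≠ 0)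
    (hK : (K⟮iotaL E K x⟯).relfinrank (modularFunctionFieldFullC K N) = D) :
    (E⟮x⟯).relfinrank (modularFunctionFieldFullC E N) = D := by
  have hfin := relfinrank_full_ne_zero E hN hx htr
  unfold modularFunctionFieldFullC at hx hfin hK ⊢
  rw [← image_iotaL_divisorExpansionsC E K N] at hK
  exact relfinrank_adjoin_descent hx hD hfin hK

theorem iotaL_x3L {q : ℕ} (hq : q ≠ 0) : iotaL E K (x3L E q) = x3L K q := by
  rw [x3L, map_mul, map_mul, iotaL_jqModC, iotaL_jd hq, iotaL_jd (Nat.mul_ne_zero hq hq)]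
  rfl

/-- **`[E(j, j_q, j_{q²}) : E(j j_q j_{q²})] = 3 q (q + 1)`** over any field of
characteristic `0`. -/
theorem relfinrank_x3_full_sq {q : ℕ} (hq : q.Prime) :
    (E⟮x3L E q⟯).relfinrank (modularFunctionFieldFullC E (q * q)) = 3 * (q * (q + 1)) := by
  have hq0 : q ≠ 0 := hq.ne_zero
  have hqq : q * q ≠ 0 := Nat.mul_ne_zero hq0 hq0
  have hK := relfinrank_x3_full_sq_algClosed (AlgebraicClosure E) hq
  rw [← iotaL_x3L E (AlgebraicClosure E) hq0] at hK
  refine relfinrank_full_descent E (AlgebraicClosure E) hqq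
    (x3L_mem_full E hq0 hqq (dvd_refl _)) (transcendental_x3L E hq0) ?_ hK
  have := hq.pos
  positivity

/-- `[E_{M q²} : E_{q²}] = ψ(M)` for `q ∤ M`. -/
theorem relfinrank_full_sq_full {q : ℕ} (hq : q.Prime) {M : ℕ} (hM : M ≠ 0) (hqM : ¬ q ∣ M) :
    (modularFunctionFieldFullC E (q * q)).relfinrank (modularFunctionFieldFullC E (M * q * q)) =
      dedekindPsi M := by
  have hq0 : q ≠ 0 := hq.ne_zero
  have hqq : q * q ≠ 0 := Nat.mul_ne_zero hq0 hq0
  have hMq : M * q ≠ 0 := Nat.mul_ne_zero hM hq0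
  have hMqq : M * q * q ≠ 0 := Nat.mul_ne_zero hMq hq0
  -- `[E_{M q²} : E(j)] = ψ(M q²) = q (q+1) ψ(M)`, `[E_{q²} : E(j)] = q (q+1)`
  have h1 : (E⟮jqModC E⟯).relfinrank (modularFunctionFieldFullC E (M * q * q)) =
      dedekindPsi (M * q * q) := relfinrank_jField_full_eq E (M * q * q) hMqq (charHyp E _)
  rw [H626.psi_mul_prime_of_dvd hMq hq (Dvd.intro_left M rfl),
    H626.psi_mul_prime_of_not_dvd hM hq hqM] at h1
  have h2 := relfinrank_j_full_sq E hq
  have i1 : E⟮jqModC E⟯ ≤ modularFunctionFieldFullC E (q * q) := by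
    rw [adjoin_simple_le_iff]
    exact j_mem_full E _ hqq
  have i2 : modularFunctionFieldFullC E (q * q) ≤ modularFunctionFieldFullC E (M * q * q) :=
    full_mono E hMqq ⟨M, by ring⟩
  have h3 := relfinrank_mul_relfinrank i1 i2
  rw [h1, h2] at h3
  have hpos : 0 < q * (q + 1) := Nat.mul_pos hq.pos (Nat.succ_pos q)
  have h4 : q * (q + 1) * (modularFunctionFieldFullC E (q * q)).relfinrank
      (modularFunctionFieldFullC E (M * q * q)) = q * (q + 1) * dedekindPsi M := by
    rw [h3]; ring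
  exact Nat.eq_of_mul_eq_mul_left hpos h4

/-- **`[E_{M q²} : E(j j_q j_{q²})] = 3 q (q + 1) ψ(M)`** (Laurent-series form, any field of
characteristic `0`). -/
theorem relfinrank_x3_full {q : ℕ} (hq : q.Prime) {M : ℕ} (hM : M ≠ 0) (hqM : ¬ q ∣ M) :
    (E⟮x3L E q⟯).relfinrank (modularFunctionFieldFullC E (M * q * q)) =
      3 * (q * (q + 1) * dedekindPsi M) := by
  have hq0 : q ≠ 0 := hq.ne_zero
  have hqq : q * q ≠ 0 := Nat.mul_ne_zero hq0 hq0
  have hMqq : M * q * q ≠ 0 := Nat.mul_ne_zero (Nat.mul_ne_zero hM hq0) hq0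
  have i1 : E⟮x3L E q⟯ ≤ modularFunctionFieldFullC E (q * q) := by
    rw [adjoin_simple_le_iff]
    exact x3L_mem_full E hq0 hqq (dvd_refl _)
  have i2 : modularFunctionFieldFullC E (q * q) ≤ modularFunctionFieldFullC E (M * q * q) :=
    full_mono E hMqq ⟨M, by ring⟩
  rw [← relfinrank_mul_relfinrank i1 i2, relfinrank_x3_full_sq E hq,
    relfinrank_full_sq_full E hq hM hqM]
  ring

end Full

/-! ### The leaf, in the vocabulary of `A2/Mod/Spec` -/

section Final

variable (E : IntermediateField ℚ Qb) (M q : ℕ) [NeZero M] [NeZero q]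

/-- The coordinate `x = j · j_q · j_{q²}` of level `M q²` (`= Mod3.x3E`, unfolded). -/
def x3F : FE E (M * q * q) :=
  jE E (M * q * q) 1 (one_dvd _) * jE E (M * q * q) q (Dvd.intro_left (M * q) rfl) *
    jE E (M * q * q) (q * q) ⟨M, by ring⟩

theorem coe_x3F : ((x3F E M q : FE E (M * q * q)) : LaurentSeries E) = x3L E q := by
  show coeffEmb E (qExpand ℚ 1 jq) * coeffEmb E (qExpand ℚ q jq) *
    coeffEmb E (qExpand ℚ (q * q) jq) = x3L E q
  rw [coeffEmb_qExpand_jq, coeffEmb_qExpand_jq, coeffEmb_qExpand_jq, jd_one]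
  rfl

/-- **Leaf DEG3.**  `x = j j_q j_{q²}` is transcendental over `E`,
`[F_{M q²} : E(x)] = 3 q (q+1) ψ(M)`, and `E` is algebraically closed in `F_{M q²}`. -/
theorem deg3 (hq : q.Prime) (hqM : ¬ q ∣ M) :
    Transcendental E (x3F E M q) ∧
    Module.finrank (IntermediateField.adjoin E ({x3F E M q} : Set (FE E (M * q * q))))
      (FE E (M * q * q)) = 3 * (q * (q + 1) * dedekindPsi M) ∧
    ∀ f : FE E (M * q * q), IsAlgebraic E f → f ∈ (algebraMap E (FE E (M * q * q))).range := by
  refine ⟨?_, ?_, ?_⟩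
  · intro halg
    have h1 : IsAlgebraic E ((x3F E M q : FE E (M * q * q)) : LaurentSeries E) :=
      (isAlgebraic_algHom_iff (FE E (M * q * q)).val (FE E (M * q * q)).val.injective).mpr halg
    rw [coe_x3F] at h1
    exact transcendental_x3L E hq.ne_zero h1
  · rw [finrank_adjoin_simple_eq_relfinrank, coe_x3F]
    have := relfinrank_x3_full E hq (NeZero.ne M) hqM
    rw [← laurentBaseChange_full_eq_fullC] at this
    exact this
  · intro f hf
    have h1 : IsAlgebraic E ((f : FE E (M * q * q)) : LaurentSeries E) :=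
      (isAlgebraic_algHom_iff (FE E (M * q * q)).val (FE E (M * q * q)).val.injective).mpr hf
    obtain ⟨c, hc⟩ := laurent_mem_range_of_isAlgebraic h1
    exact ⟨c, Subtype.ext hc⟩

/-- `F_{M q²}` is finite over `E(x)`. -/
theorem finiteDimensional_x3F (hq : q.Prime) (hqM : ¬ q ∣ M) :
    FiniteDimensional (IntermediateField.adjoin E ({x3F E M q} : Set (FE E (M * q * q))))
      (FE E (M * q * q)) := by
  apply Module.finite_of_finrank_pos
  rw [(deg3 E M q hq hqM).2.1]
  have := dedekindPsi_pos M (NeZero.ne M)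
  have := hq.pos
  positivity

end Final

end Fermat.Agent.S36.Mod3.H988

end
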