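import Fermat.Agent.A2.Mod.H398.L8Core

/-!
# S36 / MOD3 leaf DEG3 (helper988) — core: `[k(j, j_q, j_{q²}) : k(j j_q j_{q²})] = 3 q (q + 1)`

For every field `k` of characteristic `0` (inside `k((t))`), `F = k(j, j_q, j_{q²})`
(`= modularFunctionFieldFullC k (q * q)`):

* `[F : k(j)] = [F : k(j_q)] = [F : k(j_{q²})] = q (q + 1)`   (S28 / S37 H988 degree API);
* over an algebraically closed `K`: `[F : K(x₃)] = 3 q (q + 1)`, `x₃ = j · j_q · j_{q²}`
  (the three coordinates have the same poles, so the degrees of the pole divisors add).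
-/

set_option autoImplicit false
set_option linter.style.haveILetI false
set_option linter.unusedSectionVars false

noncomputable section

namespace Fermat.Agent.S36.Mod3.H988

open ModularCurve HahnSeries Polynomial IntermediateField AlgebraicCurve
open Fermat.Agent.S28 Fermat.Agent.S28.H988 Fermat.Agent.S37.H988 Fermat.Agent.A2.Mod.H398

/-! ### Part 0: three coordinates with the same poles -/

section PoleSum3

variable {K F : Type*} [Field K] [Field F] [Algebra K F] [IsAlgClosed K] [CharZero K]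

/-- **Degree of a product of three coordinates with the same poles.** -/
theorem finrank_mul3_of_same_poles {a b c : F} (ha : Transcendental K a)
    [FiniteDimensional K⟮a⟯ F] (hb : Transcendental K b) (hc : Transcendental K c)
    (hab : ∀ v : Place K F, v.ord b < 0 ↔ v.ord a < 0)
    (hac : ∀ v : Place K F, v.ord c < 0 ↔ v.ord a < 0) :
    Transcendental K (a * b * c) ∧ FiniteDimensional K⟮a * b * c⟯ F ∧
      Module.finrank K⟮a * b * c⟯ F =
        Module.finrank K⟮a⟯ F + Module.finrank K⟮b⟯ F + Module.finrank K⟮c⟯ F := by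
  classical
  have ha0 : a ≠ 0 := fun h => ha (h ▸ isAlgebraic_zero)
  have hb0 : b ≠ 0 := fun h => hb (h ▸ isAlgebraic_zero)
  have hc0 : c ≠ 0 := fun h => hc (h ▸ isAlgebraic_zero)
  haveI hfb : FiniteDimensional K⟮b⟯ F :=
    Fermat.Agent.S24.FF.finiteDimensional_adjoin_of_transcendental ha hb
  haveI hfc : FiniteDimensional K⟮c⟯ F :=
    Fermat.Agent.S24.FF.finiteDimensional_adjoin_of_transcendental ha hc
  have hmul : ∀ v : Place K F, v.ord (a * b * c) = v.ord a + v.ord b + v.ord c := fun v => by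
    rw [v.ord_mul (mul_ne_zero ha0 hb0) hc0, v.ord_mul ha0 hb0]
  have hiffx : ∀ v : Place K F, v.ord (a * b * c) < 0 ↔ v.ord a < 0 := by
    intro v
    rw [hmul]
    constructor
    · intro h
      by_contra h'
      have h1 : ¬ v.ord b < 0 := fun h2 => h' ((hab v).mp h2)
      have h2 : ¬ v.ord c < 0 := fun h2 => h' ((hac v).mp h2)
      omega
    · intro h
      have h1 := (hab v).mpr h
      have h2 := (hac v).mpr h
      omega
  set S : Finset (Place K F) := (Fermat.Agent.S24.FF.finite_setOf_ord_neg ha).toFinset with hS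
  have hSa : ∀ v, v ∈ S ↔ v.ord a < 0 := fun v => by
    rw [hS, Set.Finite.mem_toFinset]; rfl
  have hsuma := Fermat.Agent.S24.FF.sum_ord_neg_eq_neg_finrank ha S hSa
  have hsumb := Fermat.Agent.S24.FF.sum_ord_neg_eq_neg_finrank hb S
    (fun v => (hSa v).trans (hab v).symm)
  have hsumc := Fermat.Agent.S24.FF.sum_ord_neg_eq_neg_finrank hc S
    (fun v => (hSa v).trans (hac v).symm)
  have hposa : 0 < Module.finrank K⟮a⟯ F := Module.finrank_pos
  have hx : Transcendental K (a * b * c) := by
    intro hx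
    obtain ⟨e, he⟩ := Fermat.Agent.S24.FF.mem_range_of_isAlgebraic hx
    have hne : S.Nonempty := by
      by_contra hne
      rw [Finset.not_nonempty_iff_eq_empty] at hne
      rw [hne, Finset.sum_empty] at hsuma
      have : (Module.finrank K⟮a⟯ F : ℤ) = 0 := by omega
      have : Module.finrank K⟮a⟯ F = 0 := by exact_mod_cast this
      omega
    obtain ⟨v, hv⟩ := hne
    have h1 := (hiffx v).mpr ((hSa v).mp hv)
    rw [← he] at h1
    have h2 := Fermat.Agent.S24.FF.ord_algebraMap v e
    omega
  haveI hfx : FiniteDimensional K⟮a * b * c⟯ F :=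
    Fermat.Agent.S24.FF.finiteDimensional_adjoin_of_transcendental ha hx
  have hsumx := Fermat.Agent.S24.FF.sum_ord_neg_eq_neg_finrank hx S
    (fun v => (hSa v).trans (hiffx v).symm)
  refine ⟨hx, hfx, ?_⟩
  have h3 : ∑ v ∈ S, v.ord (a * b * c) =
      ∑ v ∈ S, v.ord a + ∑ v ∈ S, v.ord b + ∑ v ∈ S, v.ord c := by
    rw [← Finset.sum_add_distrib, ← Finset.sum_add_distrib]
    exact Finset.sum_congr rfl fun v _ => hmul v
  rw [hsumx, hsuma, hsumb, hsumc] at h3
  omega

/-- Mutually integral coordinates have the same poles. -/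
theorem ord_neg_iff_of_mutually_integral {y z : F}
    (hzy : IsIntegral (Algebra.adjoin K {y}) z) (hyz : IsIntegral (Algebra.adjoin K {z}) y)
    (v : Place K F) : v.ord z < 0 ↔ v.ord y < 0 := by
  constructor
  · intro h
    by_contra h'
    have := ord_nonneg_of_isIntegral_adjoin v hzy (not_lt.mp h')
    omega
  · intro h
    by_contra h'
    have := ord_nonneg_of_isIntegral_adjoin v hyz (not_lt.mp h')
    omega

end PoleSum3

/-! ### Part A: the three degrees over any field of characteristic zero -/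

section Order

variable (k : Type*) [Field k] (q : ℕ)

/-- The coordinate `x₃ = j · j_q · j_{q²}` as a Laurent series. -/
def x3L : LaurentSeries k := jqModC k * jd k q * jd k (q * q)

theorem order_jd' {e : ℕ} (he : e ≠ 0) : (jd k e).order = -(e : ℤ) := by
  have := orderTop_jd k he
  rw [← HahnSeries.order_eq_orderTop_of_ne_zero (jd_ne_zero' k he)] at this
  exact_mod_cast this

theorem order_jqModC' : (jqModC k).order = -1 := by
  have := orderTop_jq k
  rw [← HahnSeries.order_eq_orderTop_of_ne_zero (jqModC_ne_zero' k)] at this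
  exact_mod_cast this

theorem order_x3L {q : ℕ} (hq : q ≠ 0) : (x3L k q).order = -(1 + q + q * q : ℤ) := by
  have hqq : q * q ≠ 0 := Nat.mul_ne_zero hq hq
  rw [x3L, HahnSeries.order_mul (mul_ne_zero (jqModC_ne_zero' k) (jd_ne_zero' k hq))
    (jd_ne_zero' k hqq), HahnSeries.order_mul (jqModC_ne_zero' k) (jd_ne_zero' k hq),
    order_jqModC', order_jd' k hq, order_jd' k hqq]
  push_cast
  ring

theorem x3L_ne_zero {q : ℕ} (hq : q ≠ 0) : x3L k q ≠ 0 :=
  mul_ne_zero (mul_ne_zero (jqModC_ne_zero' k) (jd_ne_zero' k hq))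
    (jd_ne_zero' k (Nat.mul_ne_zero hq hq))

theorem transcendental_x3L {q : ℕ} (hq : q ≠ 0) : Transcendental k (x3L k q) := by
  apply laurent_transcendental_of_order_ne_zero
  rw [order_x3L k hq]
  have : (0 : ℤ) ≤ q * q := by positivity
  omega

theorem transcendental_jd' {e : ℕ} (he : e ≠ 0) : Transcendental k (jd k e) := by
  apply laurent_transcendental_of_order_ne_zero
  rw [order_jd' k he]
  omega

end Order

section Level

variable (k : Type*) [Field k] [CharZero k]

theorem j_mem_full (N : ℕ) (hN : N ≠ 0) : jqModC k ∈ modularFunctionFieldFullC k N := by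
  have := jd_mem_full k hN (one_dvd N)
  rwa [jd_one] at this

theorem x3L_mem_full {q : ℕ} (_hq : q ≠ 0) {N : ℕ} (hN : N ≠ 0) (hqN : q * q ∣ N) :
    x3L k q ∈ modularFunctionFieldFullC k N :=
  mul_mem (mul_mem (j_mem_full k N hN)
    (jd_mem_full k hN ((Dvd.intro q rfl).trans hqN))) (jd_mem_full k hN hqN)

/-- `[E_{q²} : E_q] = q`. -/
theorem relfinrank_full_prime_full_sq {q : ℕ} (hq : q.Prime) :
    (modularFunctionFieldFullC k q).relfinrank (modularFunctionFieldFullC k (q * q)) = q := by
  have h := relfinrank_full_mul_prime k q q hq.ne_zero hq (charHyp k (q * q))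
  rwa [if_pos (dvd_refl q)] at h

/-- `[E_{q²} : k(j)] = q (q + 1)`. -/
theorem relfinrank_j_full_sq {q : ℕ} (hq : q.Prime) :
    (k⟮jqModC k⟯).relfinrank (modularFunctionFieldFullC k (q * q)) = q * (q + 1) := by
  have hqq : q * q ≠ 0 := Nat.mul_ne_zero hq.ne_zero hq.ne_zero
  have i1 : k⟮jqModC k⟯ ≤ modularFunctionFieldFullC k q := by
    rw [← full_one]
    exact full_mono k hq.ne_zero (one_dvd q)
  have i2 : modularFunctionFieldFullC k q ≤ modularFunctionFieldFullC k (q * q) :=
    full_mono k hqq (Dvd.intro q rfl)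
  rw [← relfinrank_mul_relfinrank i1 i2, relfinrank_j_full_prime k hq,
    relfinrank_full_prime_full_sq k hq]
  ring

/-- `[E_{q²} : k(j_q)] = q (q + 1)`. -/
theorem relfinrank_jq_full_sq {q : ℕ} (hq : q.Prime) :
    (k⟮jd k q⟯).relfinrank (modularFunctionFieldFullC k (q * q)) = q * (q + 1) := by
  have hqq : q * q ≠ 0 := Nat.mul_ne_zero hq.ne_zero hq.ne_zero
  have i1 : k⟮jd k q⟯ ≤ modularFunctionFieldFullC k q := by
    rw [adjoin_simple_le_iff]
    exact jd_mem_full k hq.ne_zero (dvd_refl q)
  have i2 : modularFunctionFieldFullC k q ≤ modularFunctionFieldFullC k (q * q) :=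
    full_mono k hqq (Dvd.intro q rfl)
  rw [← relfinrank_mul_relfinrank i1 i2, relfinrank_jq_full_prime k hq,
    relfinrank_full_prime_full_sq k hq]
  ring

theorem map_VAlg_adjoin_jd (q e : ℕ) (hq : q ≠ 0) (he : e ≠ 0) :
    (k⟮jd k e⟯).map (VAlg k q) = k⟮jd k (q * e)⟯ := by
  rw [adjoin_map, Set.image_singleton, VAlg_jd k hq he]

/-- `[E_{q²} : V_q(E_q)] = q`. -/
theorem relfinrank_map_full_sq {q : ℕ} (hq : q.Prime) :
    ((modularFunctionFieldFullC k q).map (VAlg k q)).relfinrank
      (modularFunctionFieldFullC k (q * q)) = q := by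
  have hq0 : q ≠ 0 := hq.ne_zero
  have i1 : k⟮jqModC k⟯ ≤ modularFunctionFieldFullC k q := by
    rw [← full_one]
    exact full_mono k hq0 (one_dvd q)
  have i1' : (k⟮jqModC k⟯).map (VAlg k q) ≤ (modularFunctionFieldFullC k q).map (VAlg k q) :=
    IntermediateField.map_mono _ i1
  have i2 : (modularFunctionFieldFullC k q).map (VAlg k q) ≤
      modularFunctionFieldFullC k (q * q) := map_full_le k hq0 hq0
  have h := relfinrank_mul_relfinrank i1' i2
  rw [relfinrank_map_map, relfinrank_j_full_prime k hq, map_VAlg_adjoin_j,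
    relfinrank_jq_full_sq k hq] at h
  have h' : (q + 1) * ((modularFunctionFieldFullC k q).map (VAlg k q)).relfinrank
      (modularFunctionFieldFullC k (q * q)) = (q + 1) * q := by
    rw [h]; ring
  exact Nat.eq_of_mul_eq_mul_left (Nat.succ_pos q) h'

/-- `[E_{q²} : k(j_{q²})] = q (q + 1)`. -/
theorem relfinrank_jqq_full_sq {q : ℕ} (hq : q.Prime) :
    (k⟮jd k (q * q)⟯).relfinrank (modularFunctionFieldFullC k (q * q)) = q * (q + 1) := by
  have hq0 : q ≠ 0 := hq.ne_zero
  have i1 : k⟮jd k q⟯ ≤ modularFunctionFieldFullC k q := by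
    rw [adjoin_simple_le_iff]
    exact jd_mem_full k hq0 (dvd_refl q)
  have i1' : (k⟮jd k q⟯).map (VAlg k q) ≤ (modularFunctionFieldFullC k q).map (VAlg k q) :=
    IntermediateField.map_mono _ i1
  have i2 : (modularFunctionFieldFullC k q).map (VAlg k q) ≤
      modularFunctionFieldFullC k (q * q) := map_full_le k hq0 hq0
  have h := relfinrank_mul_relfinrank i1' i2
  rw [relfinrank_map_map, relfinrank_jq_full_prime k hq, relfinrank_map_full_sq k hq,
    map_VAlg_adjoin_jd k q q hq0 hq0] at h
  rw [← h]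
  ring

end Level

/-! ### Part B: the degree over an algebraically closed field -/

section Bar

variable (K : Type*) [Field K] [CharZero K] [IsAlgClosed K] {q : ℕ}

/-- **`[K(j, j_q, j_{q²}) : K(j j_q j_{q²})] = 3 q (q + 1)`** over an algebraically closed
field. -/
theorem relfinrank_x3_full_sq_algClosed (hq : q.Prime) :
    (K⟮x3L K q⟯).relfinrank (modularFunctionFieldFullC K (q * q)) = 3 * (q * (q + 1)) := by
  have hq0 : q ≠ 0 := hq.ne_zero
  have hqq : q * q ≠ 0 := Nat.mul_ne_zero hq0 hq0
  set F := modularFunctionFieldFullC K (q * q) with hF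
  have hjmem : jqModC K ∈ F := j_mem_full K (q * q) hqq
  have hjqmem : jd K q ∈ F := jd_mem_full K hqq (Dvd.intro q rfl)
  have hjqqmem : jd K (q * q) ∈ F := jd_mem_full K hqq (dvd_refl _)
  set a : F := ⟨jqModC K, hjmem⟩ with ha_def
  set b : F := ⟨jd K q, hjqmem⟩ with hb_def
  set c : F := ⟨jd K (q * q), hjqqmem⟩ with hc_def
  have hta : Transcendental K a := by
    intro halg
    exact transcendental_jqModC' K ((isAlgebraic_algHom_iff F.val F.val.injective).mpr halg)
  have htb : Transcendental K b := by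
    intro halg
    exact transcendental_jd' K hq0 ((isAlgebraic_algHom_iff F.val F.val.injective).mpr halg)
  have htc : Transcendental K c := by
    intro halg
    exact transcendental_jd' K hqq ((isAlgebraic_algHom_iff F.val F.val.injective).mpr halg)
  have hfa : (K⟮((a : F) : LaurentSeries K)⟯).relfinrank F = q * (q + 1) :=
    relfinrank_j_full_sq K hq
  have hfb : (K⟮((b : F) : LaurentSeries K)⟯).relfinrank F = q * (q + 1) :=
    relfinrank_jq_full_sq K hq
  have hfc : (K⟮((c : F) : LaurentSeries K)⟯).relfinrank F = q * (q + 1) :=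
    relfinrank_jqq_full_sq K hq
  have hpos : q * (q + 1) ≠ 0 := Nat.mul_ne_zero hq0 (Nat.succ_ne_zero q)
  haveI : FiniteDimensional K⟮a⟯ F :=
    finiteDimensional_adjoin_simple_of_relfinrank_ne_zero F a (by rw [hfa]; exact hpos)
  obtain ⟨Φ, hΦ⟩ := exists_phiRel K q hq
  have hba : IsIntegral (Algebra.adjoin K {a}) b :=
    isIntegral_adjoin_of_isRoot_PhiAt F hΦ.monic a b hΦ.root_jp
  have hab : IsIntegral (Algebra.adjoin K {b}) a :=
    isIntegral_adjoin_of_isRoot_PhiAt F hΦ.monic b a hΦ.root_j
  have hcb : IsIntegral (Algebra.adjoin K {b}) c :=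
    isIntegral_adjoin_of_isRoot_PhiAt F hΦ.monic b c (hΦ.root1 hq0 hq0)
  have hbc : IsIntegral (Algebra.adjoin K {c}) b :=
    isIntegral_adjoin_of_isRoot_PhiAt F hΦ.monic c b (hΦ.root2 hq0 hq0)
  have hpab : ∀ v : Place K F, v.ord b < 0 ↔ v.ord a < 0 :=
    fun v => ord_neg_iff_of_mutually_integral hba hab v
  have hpac : ∀ v : Place K F, v.ord c < 0 ↔ v.ord a < 0 :=
    fun v => (ord_neg_iff_of_mutually_integral hcb hbc v).trans (hpab v)
  obtain ⟨-, -, h⟩ := finrank_mul3_of_same_poles hta htb htc hpab hpac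
  rw [finrank_adjoin_simple_eq_relfinrank, finrank_adjoin_simple_eq_relfinrank,
    finrank_adjoin_simple_eq_relfinrank, finrank_adjoin_simple_eq_relfinrank, hfa, hfb, hfc] at h
  have hx : (((a * b * c : F)) : LaurentSeries K) = x3L K q := rfl
  rw [hx] at h
  rw [h]
  ring

end Bar

end Fermat.Agent.S36.Mod3.H988

end
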