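import Fermat.Agent.S36.Mod3.H988.Deg3Core
import Fermat.Agent.S24.FFFinite

/-!
# S36 / MOD3 leaf DEG3 (helper988) — descent of degrees along `E ⊆ K`

Generic descent inside Laurent series: for `x ∈ E(S) ⊆ E((t))` transcendental-like (finite
relative degree), `[E(S) : E(x)] = [K(ι S) : K(ι x)]`, where `ι : E((t)) → K((t))` is the
coefficient embedding.  (Primitive element over `E(x)` + linear disjointness `LinDisj`.)
-/

set_option autoImplicit false
set_option linter.style.haveILetI false
set_option linter.unusedSectionVars false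

noncomputable section

namespace Fermat.Agent.S36.Mod3.H988

open ModularCurve HahnSeries Polynomial IntermediateField
open Fermat.Agent.S28 Fermat.Agent.S28.H988 Fermat.Agent.S37.H988 Fermat.Agent.A2.Mod.H398

section General

variable {F Ω : Type*} [Field F] [Field Ω] [Algebra F Ω]

/-- Primitive element theorem inside the lattice of intermediate fields (characteristic `0`). -/
theorem exists_primitive_sup [CharZero F] (A B : IntermediateField F Ω) (h : A ≤ B)
    (hfin : A.relfinrank B ≠ 0) : ∃ θ ∈ B, B = A ⊔ F⟮θ⟯ := by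
  rw [relfinrank_eq_finrank_of_le h] at hfin
  haveI : FiniteDimensional A (extendScalars h) :=
    Module.finite_of_finrank_pos (Nat.pos_of_ne_zero hfin)
  haveI : CharZero A := charZero_of_injective_algebraMap (algebraMap F A).injective
  obtain ⟨α, hα⟩ := Field.exists_primitive_element A (extendScalars h)
  refine ⟨(α : Ω), α.2, ?_⟩
  have h1 : (A⟮α⟯).map (extendScalars h).val = A⟮(α : Ω)⟯ := by
    rw [IntermediateField.adjoin_map, Set.image_singleton]
    rfl
  have h2 : A⟮(α : Ω)⟯ = extendScalars h := by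
    rw [← h1, hα, ← AlgHom.fieldRange_eq_map, fieldRange_val]
  have h3 := congrArg (restrictScalars F) h2
  rw [restrictScalars_adjoin_eq_sup, extendScalars_restrictScalars] at h3
  exact h3.symm

end General

section Iota

variable {E K : Type*} [Field E] [Field K] [Algebra E K]

/-- `ι` maps `E(S)` into `K(ι S)`. -/
theorem iotaL_mem_adjoin {S : Set (LaurentSeries E)} {c : LaurentSeries E}
    (hc : c ∈ adjoin E S) : iotaL E K c ∈ adjoin K (iotaL E K '' S) := by
  induction hc using IntermediateField.adjoin_induction with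
  | mem x hx => exact subset_adjoin K _ ⟨x, hx, rfl⟩
  | algebraMap c =>
    rw [iotaL_algebraMap]
    exact IntermediateField.algebraMap_mem _ _
  | add x y _ _ hx hy =>
    rw [map_add]
    exact add_mem hx hy
  | inv x _ hx =>
    rw [map_inv₀]
    exact inv_mem hx
  | mul x y _ _ hx hy =>
    rw [map_mul]
    exact mul_mem hx hy

theorem adjoin_pair_eq_sup (x θ : LaurentSeries E) :
    adjoin E ({x, θ} : Set (LaurentSeries E)) = E⟮x⟯ ⊔ E⟮θ⟯ := by
  rw [← adjoin_union]
  rfl

variable [CharZero E] [CharZero K]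

/-- **Generic descent of the degree.** -/
theorem relfinrank_adjoin_descent {x : LaurentSeries E} {S : Set (LaurentSeries E)}
    (hxS : x ∈ adjoin E S) {D : ℕ} (hD : D ≠ 0)
    (hfin : (E⟮x⟯).relfinrank (adjoin E S) ≠ 0)
    (hK : (K⟮iotaL E K x⟯).relfinrank (adjoin K (iotaL E K '' S)) = D) :
    (E⟮x⟯).relfinrank (adjoin E S) = D := by
  have hle : E⟮x⟯ ≤ adjoin E S := by
    rw [adjoin_simple_le_iff]
    exact hxS
  obtain ⟨θ, hθ, hsup⟩ := exists_primitive_sup (E⟮x⟯) (adjoin E S) hle hfin
  -- the `K`-side is generated by `ι θ` over `K(ι x)`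
  have hsupK : adjoin K (iotaL E K '' S) = K⟮iotaL E K x⟯ ⊔ K⟮iotaL E K θ⟯ := by
    apply le_antisymm
    · rw [adjoin_le_iff]
      rintro _ ⟨s, hs, rfl⟩
      have h1 : s ∈ adjoin E ({x, θ} : Set (LaurentSeries E)) := by
        rw [adjoin_pair_eq_sup, ← hsup]
        exact subset_adjoin E S hs
      have h2 := iotaL_mem_adjoin (K := K) h1
      rw [Set.image_pair, adjoin_pair_eq_sup] at h2
      exact h2
    · rw [sup_le_iff, adjoin_simple_le_iff, adjoin_simple_le_iff]
      exact ⟨iotaL_mem_adjoin hxS, iotaL_mem_adjoin hθ⟩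
  rw [hsupK] at hK
  have hintK : IsIntegral K⟮iotaL E K x⟯ (iotaL E K θ) :=
    isIntegral_of_relfinrank_sup_ne_zero _ _ (by rw [hK]; exact hD)
  have hdegK : (minpoly K⟮iotaL E K x⟯ (iotaL E K θ)).natDegree = D := by
    rw [← relfinrank_sup_adjoin _ _ hintK, hK]
  have hQ : LinearIndependent K⟮iotaL E K x⟯ (fun i : Fin D => iotaL E K θ ^ (i : ℕ)) :=
    linearIndependent_pow_of_le (le_of_eq hdegK.symm)
  have hQ' : ¬ LinearIndependent K⟮iotaL E K x⟯
      (fun i : Fin (D + 1) => iotaL E K θ ^ (i : ℕ)) := by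
    intro h
    have := le_natDegree_of_linearIndependent_pow hintK h
    omega
  -- transfer
  have hP : LinearIndependent E⟮x⟯ (fun i : Fin D => θ ^ (i : ℕ)) :=
    (linearIndependent_iotaL_iff' x (iotaL E K x) rfl _ _
      (fun i => by rw [map_pow])).mp hQ
  have hP' : ¬ LinearIndependent E⟮x⟯ (fun i : Fin (D + 1) => θ ^ (i : ℕ)) :=
    fun h => hQ' ((linearIndependent_iotaL_iff' x (iotaL E K x) rfl _ _
      (fun i => by rw [map_pow])).mpr h)
  -- the `E`-side
  have hintE : IsIntegral E⟮x⟯ θ := isIntegral_of_not_linearIndependent_pow hP'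
  have hdegE : (minpoly E⟮x⟯ θ).natDegree = D := by
    apply le_antisymm
    · by_contra hlt
      rw [not_le] at hlt
      exact hP' (linearIndependent_pow_of_le hlt)
    · exact le_natDegree_of_linearIndependent_pow hintE hP
  rw [hsup, relfinrank_sup_adjoin _ _ hintE, hdegE]

end Iota

end Fermat.Agent.S36.Mod3.H988

end
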