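import Fermat.Agent.S36.Mod3.Spec
import Fermat.Agent.S36.Mod3.H988.Deg3

/-!
# S36 / MOD3 leaves **FIN** and **FF** (helper988)

* `leafFin : Mod3.LeafFin` — the two degeneracy maps `α, β : F_{Mq} → F_{Mq²}` are finite
  (`F_{Mq²}` is finite over `E(j)` resp. `E(j_q)`, which lie in the image of `α` resp. `β`);
* `leafFF : Mod3.LeafFF` — corollary of `deg3`;
* `deg3_x3E` — `[F_{Mq²} : E(x)] = 3 q (q+1) ψ(M)` for `x = Mod3.x3E E M q`.
-/

set_option autoImplicit false
set_option linter.style.haveILetI false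
set_option linter.unusedSectionVars false
set_option synthInstance.maxHeartbeats 400000
set_option maxHeartbeats 1600000

noncomputable section

namespace Fermat.Agent.S36.Mod3.H988

open ModularCurve HahnSeries Polynomial IntermediateField AlgebraicCurve
open Fermat.Agent.S28 Fermat.Agent.S28.H988 Fermat.Agent.S37.H988 Fermat.Agent.A2.Mod.H398
open Fermat.Agent.A2.Mod

/-! ### A finiteness criterion for `FiniteAlong` -/

section Generic

variable {K F F' : Type*} [Field K] [Field F] [Field F'] [Algebra K F] [Algebra K F']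

/-- If `F'` is finite over `K(φ x)` for some `x : F`, then `φ : F → F'` is finite. -/
theorem finiteAlong_of_finite_adjoin (φ : F →ₐ[K] F') (x : F)
    [hfin : FiniteDimensional K⟮φ x⟯ F'] : FiniteAlong K φ := by
  unfold FiniteAlong
  letI := algebraAlong φ
  obtain ⟨s, hs⟩ := (Module.finite_def.mp hfin)
  refine ⟨⟨s, ?_⟩⟩
  rw [eq_top_iff]
  rintro y -
  have hy : y ∈ Submodule.span K⟮φ x⟯ (s : Set F') := by
    rw [hs]
    exact Submodule.mem_top
  have hle : K⟮φ x⟯ ≤ φ.fieldRange := by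
    rw [adjoin_simple_le_iff]
    exact ⟨x, rfl⟩
  induction hy using Submodule.span_induction with
  | mem z hz => exact Submodule.subset_span hz
  | zero => exact Submodule.zero_mem _
  | add z₁ z₂ _ _ h₁ h₂ => exact Submodule.add_mem _ h₁ h₂
  | smul c z _ hz =>
    obtain ⟨c', hc'⟩ := hle c.2
    have h1 : c • z = c' • z := by
      rw [IntermediateField.smul_def, smul_eq_mul, Algebra.smul_def, ← hc']
      rfl
    rw [h1]
    exact Submodule.smul_mem _ _ hz

end Generic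

/-! ### `F_N` is finite over `E(j_d)` -/

section Fin

variable (E : IntermediateField ℚ Qb)

theorem coe_jE (N d : ℕ) [NeZero d] (hd : d ∣ N) :
    ((jE E N d hd : FE E N) : LaurentSeries E) = jd E d := by
  show coeffEmb E (qExpand ℚ d ModularCurve.jq) = jd E d
  rw [coeffEmb_qExpand_jq]

theorem finiteDimensional_adjoin_jE (N d : ℕ) [NeZero N] [NeZero d] (hd : d ∣ N) :
    FiniteDimensional (IntermediateField.adjoin E ({jE E N d hd} : Set (FE E N))) (FE E N) := by
  apply finiteDimensional_adjoin_simple_of_relfinrank_ne_zero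
  rw [coe_jE]
  have h := relfinrank_full_ne_zero E (NeZero.ne N) (jd_mem_full E (NeZero.ne N) hd)
    (transcendental_jd' E (NeZero.ne d))
  rw [← laurentBaseChange_full_eq_fullC] at h
  exact h

variable (N ℓ : ℕ) [NeZero N] [NeZero ℓ]

theorem heckeAlphaBar_jE (d : ℕ) [NeZero d] (hd : d ∣ N) :
    heckeAlphaBar E N ℓ (jE E N d hd) = jE E (N * ℓ) d (hd.trans (dvd_mul_right N ℓ)) := by
  apply Subtype.ext
  rw [coe_heckeAlphaBar]
  rfl

theorem heckeBetaBar_jE (d : ℕ) [NeZero d] (hd : d ∣ N) :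
    heckeBetaBar E N ℓ (jE E N d hd) =
      jE E (N * ℓ) (d * ℓ) (Nat.mul_dvd_mul_right hd ℓ) := by
  apply Subtype.ext
  rw [coe_heckeBetaBar, coe_jE, coe_jE]
  haveI : NeZero (d * ℓ) := ⟨Nat.mul_ne_zero (NeZero.ne d) (NeZero.ne ℓ)⟩
  rw [mul_comm d ℓ, ← VAlg_jd E (NeZero.ne ℓ) (NeZero.ne d), VAlg_apply, Vm_eq]

/-- **`α : F_N → F_{Nℓ}` is finite** (any `N, ℓ ≠ 0`). -/
theorem finiteAlong_heckeAlphaBar : FiniteAlong E (heckeAlphaBar E N ℓ) := by
  haveI : NeZero (N * ℓ) := ⟨Nat.mul_ne_zero (NeZero.ne N) (NeZero.ne ℓ)⟩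
  haveI : FiniteDimensional
      (↥E)⟮heckeAlphaBar E N ℓ (jE E N 1 (one_dvd _))⟯ (FE E (N * ℓ)) := by
    rw [heckeAlphaBar_jE]
    exact finiteDimensional_adjoin_jE E (N * ℓ) 1 _
  exact finiteAlong_of_finite_adjoin (heckeAlphaBar E N ℓ) (jE E N 1 (one_dvd _))

/-- **`β : F_N → F_{Nℓ}` is finite** (any `N, ℓ ≠ 0`). -/
theorem finiteAlong_heckeBetaBar : FiniteAlong E (heckeBetaBar E N ℓ) := by
  haveI : NeZero (N * ℓ) := ⟨Nat.mul_ne_zero (NeZero.ne N) (NeZero.ne ℓ)⟩
  haveI : NeZero (1 * ℓ) := ⟨Nat.mul_ne_zero one_ne_zero (NeZero.ne ℓ)⟩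
  haveI : FiniteDimensional
      (↥E)⟮heckeBetaBar E N ℓ (jE E N 1 (one_dvd _))⟯ (FE E (N * ℓ)) := by
    rw [heckeBetaBar_jE]
    exact finiteDimensional_adjoin_jE E (N * ℓ) (1 * ℓ) _
  exact finiteAlong_of_finite_adjoin (heckeBetaBar E N ℓ) (jE E N 1 (one_dvd _))

end Fin

/-! ### The leaves -/

section Leaves

open Fermat.Agent.S36.Mod3

/-- **Leaf FIN** of `Mod3/Spec`. -/
theorem leafFin : LeafFin := by
  intro E M q _ _ _ _ _
  exact ⟨finiteAlong_heckeAlphaBar E (M * q) q, finiteAlong_heckeBetaBar E (M * q) q⟩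

theorem x3E_eq_x3F (E : IntermediateField ℚ Qb) (M q : ℕ) [NeZero M] [NeZero q]
    [NeZero (M * q)] : x3E E M q = x3F E M q := rfl

/-- **DEG3** for the coordinate of `Mod3/Spec`:
`[F_{M q²} : E(j j_q j_{q²})] = 3 q (q + 1) ψ(M)`. -/
theorem deg3_x3E (E : IntermediateField ℚ Qb) (M q : ℕ) [NeZero M] [NeZero q]
    [NeZero (M * q)] (hq : q.Prime) (hqM : ¬ q ∣ M) :
    Module.finrank (IntermediateField.adjoin E ({x3E E M q} : Set (FE E (M * q * q))))
      (FE E (M * q * q)) = 3 * (q * (q + 1) * dedekindPsi M) := by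
  rw [x3E_eq_x3F]
  exact (deg3 E M q hq hqM).2.1

/-- **Leaf FF** of `Mod3/Spec`. -/
theorem leafFF : LeafFF := by
  intro E M q _ _ _ hq hqM
  rw [x3E_eq_x3F]
  exact ⟨(deg3 E M q hq hqM).1, finiteDimensional_x3F E M q hq hqM, (deg3 E M q hq hqM).2.2⟩

end Leaves

end Fermat.Agent.S36.Mod3.H988

end
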